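import Mathlib

/-!
# P5, block [TATE], second method (T-B): flatness bookkeeping for `O ⊗[ℤ] J`

For a ring `O` flat over `ℤ` (e.g. a domain of characteristic zero) and an abelian group `J`:

* `mem_range_of_baseChange_eq_zero` : the kernel of a base-changed map is the image of the base
  change of the kernel;
* `baseChange_eq_of_eqOn_torsion` : two endomorphisms of `J` which agree on `J[n]` have base
  changes which agree on `(O ⊗ J)[n]`;
* `finite_torsion_tensor` : `(O ⊗ J)[p]` is finite if `J[p]` and `O / p` are;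
* `exists_eq_nsmul_of_baseChange_eq_zero` : if `ker lam ⊆ m L` then `ker (O ⊗ lam) ⊆ m (O ⊗ L)`;
* `eq_zero_of_forall_exists_pow_smul` : Krull separation for finite modules over a local ring.
-/

set_option autoImplicit false

open scoped TensorProduct

namespace Fermat.Agent.P5.TateB

section Flat

variable (O : Type*) [CommRing O] [Module.Flat ℤ O] {J : Type*} [AddCommGroup J]

/-- Flatness: the kernel of a base-changed map is the image of the base change of the kernel. -/
theorem mem_range_of_baseChange_eq_zero {J' : Type*} [AddCommGroup J'] (f : J →ₗ[ℤ] J')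
    (x : O ⊗[ℤ] J) (hx : f.baseChange O x = 0) :
    x ∈ LinearMap.range ((LinearMap.ker f).subtype.baseChange O) := by
  have h := Module.Flat.ker_lTensor_eq O O f
  have hx' : x ∈ LinearMap.ker (TensorProduct.AlgebraTensorModule.lTensor O O f) := hx
  rw [h] at hx'
  exact hx'

omit [Module.Flat ℤ O] in
theorem nsmul_eq_baseChange (n : ℕ) (x : O ⊗[ℤ] J) :
    n • x = ((n : ℤ) • (LinearMap.id : J →ₗ[ℤ] J)).baseChange O x := by
  rw [LinearMap.baseChange_smul, LinearMap.baseChange_id, LinearMap.smul_apply,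
    LinearMap.id_apply, natCast_zsmul]

/-- The `n`-torsion of `O ⊗ J` is the image of `O ⊗ J[n]`. -/
theorem mem_range_of_nsmul_eq_zero (n : ℕ) (x : O ⊗[ℤ] J) (hx : n • x = 0) :
    x ∈ LinearMap.range
      ((LinearMap.ker ((n : ℤ) • (LinearMap.id : J →ₗ[ℤ] J))).subtype.baseChange O) :=
  mem_range_of_baseChange_eq_zero O _ x (by rw [← nsmul_eq_baseChange, hx])

omit [Module.Flat ℤ O] in
theorem mem_ker_natCast_smul_id (n : ℕ) (z : J) :
    z ∈ LinearMap.ker ((n : ℤ) • (LinearMap.id : J →ₗ[ℤ] J)) ↔ n • z = 0 := by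
  rw [LinearMap.mem_ker, LinearMap.smul_apply, LinearMap.id_apply, natCast_zsmul]

/-- Two endomorphisms of `J` which agree on `J[n]` have base changes agreeing on `(O ⊗ J)[n]`. -/
theorem baseChange_eq_of_eqOn_torsion {J' : Type*} [AddCommGroup J'] (f g : J →ₗ[ℤ] J') (n : ℕ)
    (h : ∀ z : J, n • z = 0 → f z = g z) (x : O ⊗[ℤ] J) (hx : n • x = 0) :
    f.baseChange O x = g.baseChange O x := by
  obtain ⟨y, rfl⟩ := mem_range_of_nsmul_eq_zero O n x hx
  rw [← LinearMap.comp_apply, ← LinearMap.comp_apply, ← LinearMap.baseChange_comp,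
    ← LinearMap.baseChange_comp]
  congr 2
  ext z
  exact h z ((mem_ker_natCast_smul_id n _).mp z.2)

/-- If `ker lam ⊆ m L`, then `ker (O ⊗ lam) ⊆ m (O ⊗ L)`. -/
theorem exists_eq_nsmul_of_baseChange_eq_zero {L : Type*} [AddCommGroup L] (lam : L →ₗ[ℤ] J)
    (m : ℕ) (hker : ∀ ψ : L, lam ψ = 0 → ∃ ψ' : L, ψ = m • ψ') (v : O ⊗[ℤ] L)
    (hv : lam.baseChange O v = 0) : ∃ v' : O ⊗[ℤ] L, v = m • v' := by
  obtain ⟨y, rfl⟩ := mem_range_of_baseChange_eq_zero O lam v hv
  clear hv
  induction y using TensorProduct.induction_on with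
  | zero => exact ⟨0, by rw [map_zero, smul_zero]⟩
  | tmul a k =>
    obtain ⟨ψ', hψ'⟩ := hker k k.2
    refine ⟨a ⊗ₜ[ℤ] ψ', ?_⟩
    rw [LinearMap.baseChange_tmul, Submodule.subtype_apply, hψ', TensorProduct.tmul_smul]
  | add y₁ y₂ h₁ h₂ =>
    obtain ⟨v₁, h₁⟩ := h₁
    obtain ⟨v₂, h₂⟩ := h₂
    exact ⟨v₁ + v₂, by rw [map_add, h₁, h₂, smul_add]⟩

/-- `(O ⊗ J)[p]` is finite if `J[p]` is finite and `O / p` is finite. -/
theorem finite_torsion_tensor [IsNoetherianRing O] (p : ℕ) (hfin : {z : J | p • z = 0}.Finite)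
    (hO : Finite (O ⧸ Ideal.span {(p : O)})) : {x : O ⊗[ℤ] J | p • x = 0}.Finite := by
  classical
  set K := LinearMap.ker ((p : ℤ) • (LinearMap.id : J →ₗ[ℤ] J)) with hK
  have hKfin : Finite K := by
    have h1 : (K : Set J) = {z : J | p • z = 0} := by
      ext z
      exact mem_ker_natCast_smul_id p z
    have h2 : (K : Set J).Finite := by rw [h1]; exact hfin
    exact h2.to_subtype
  have hKmod : Module.Finite ℤ K := Module.Finite.of_finite
  -- the range of `O ⊗ K → O ⊗ J` is a finite `O`-module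
  set R := LinearMap.range (K.subtype.baseChange O) with hR
  have hRfin : Module.Finite O R := Module.Finite.range _
  -- the torsion submodule
  set T := Submodule.torsionBy O (O ⊗[ℤ] J) (p : O) with hT
  have hTR : T ≤ R := by
    intro x hx
    have hx' : (p : O) • x = 0 := (Submodule.mem_torsionBy_iff _ _).mp hx
    rw [Nat.cast_smul_eq_nsmul] at hx'
    exact mem_range_of_nsmul_eq_zero O p x hx'
  have hTfin : Module.Finite O T :=
    Module.Finite.of_injective (Submodule.inclusion hTR) (Submodule.inclusion_injective hTR)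
  have hTfin' : Module.Finite (O ⧸ Ideal.span {(p : O)}) T :=
    Module.Finite.of_restrictScalars_finite O (O ⧸ Ideal.span {(p : O)}) T
  have hTF : Finite T := Module.finite_of_finite (O ⧸ Ideal.span {(p : O)})
  have h3 : {x : O ⊗[ℤ] J | p • x = 0} = (T : Set (O ⊗[ℤ] J)) := by
    ext x
    show p • x = 0 ↔ x ∈ T
    rw [Submodule.mem_torsionBy_iff, Nat.cast_smul_eq_nsmul]
  rw [h3]
  exact Set.toFinite _

end Flat

section Krull

/-- Krull separation: an element of a finite module over a Noetherian local ring which is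
divisible by all powers of an element of the maximal ideal is zero. -/
theorem eq_zero_of_forall_exists_pow_smul {O : Type*} [CommRing O] [IsLocalRing O]
    [IsNoetherianRing O] {M : Type*} [AddCommGroup M] [Module O M] [Module.Finite O M] (p : ℕ)
    (hp : (p : O) ∈ IsLocalRing.maximalIdeal O) (v : M)
    (h : ∀ k : ℕ, ∃ v' : M, v = p ^ k • v') : v = 0 := by
  have h1 := Ideal.iInf_pow_smul_eq_bot_of_isLocalRing (M := M) (IsLocalRing.maximalIdeal O)
    (IsLocalRing.maximalIdeal.isMaximal O).ne_top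
  have h2 : v ∈ ⨅ i : ℕ, IsLocalRing.maximalIdeal O ^ i • (⊤ : Submodule O M) := by
    rw [Submodule.mem_iInf]
    intro k
    obtain ⟨v', rfl⟩ := h k
    rw [← Nat.cast_smul_eq_nsmul O, Nat.cast_pow]
    exact Submodule.smul_mem_smul (Ideal.pow_mem_pow hp k) Submodule.mem_top
  rw [h1] at h2
  exact (Submodule.mem_bot O).mp h2

end Krull

end Fermat.Agent.P5.TateB
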