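import Mathlib
import Fermat.Agent.Lib.TateModuleKit
import Fermat.Agent.P5.TateB.Flat

/-!
# P5, block [TATE], second method (T-B): the eigenlattice of `tate O p (O ⊗[ℤ] J)`

Generic form: an abelian group `J` with finite `p`-torsion, a monoid `G` acting on it, commuting
operators `TJ i`, a compatible family `lam k : L → J[p ^ k]` out of a finite `ℤ`-module `L`
intertwining operators `TL i` on `L` with the `TJ i`, and an eigenvector `v ∈ O ⊗ L`.  Output: a
nonzero finite free `O`-module `W` with a `G`-action on which every relation that holds on the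
`p`-power torsion of `J` holds with `TJ i` replaced by the eigenvalue `c i`.
-/

set_option autoImplicit false

open scoped TensorProduct

namespace Fermat.Agent.P5.TateB

open Fermat.Agent.Lib.TateModule Fermat.Agent.Lib.TateModuleKit IsLocalRing

section Transfer

variable (O : Type*) [CommRing O] [Module.Flat ℤ O] {p : ℕ} {J : Type*} [AddCommGroup J]

/-- An endomorphism of `J` which is the identity on the `p`-power torsion induces the identity
of `tate O p (O ⊗ J)`. -/
theorem tateMap_baseChange_eq_one (f : Module.End ℤ J)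
    (h : ∀ (k : ℕ) (x : J), p ^ k • x = 0 → f x = x) :
    tateMap (p := p) (f.baseChange O) = 1 := by
  refine tateMap_eq_one _ fun k x hx => ?_
  have h1 := baseChange_eq_of_eqOn_torsion O f LinearMap.id (p ^ k) (fun z hz => h k z hz) x hx
  rw [h1, LinearMap.baseChange_id, LinearMap.id_apply]

/-- An endomorphism of `J` which kills the `p`-power torsion induces zero. -/
theorem tateMap_baseChange_eq_zero (f : Module.End ℤ J)
    (h : ∀ (k : ℕ) (x : J), p ^ k • x = 0 → f x = 0) :
    tateMap (p := p) (f.baseChange O) = 0 := by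
  refine tateMap_eq_zero _ fun k x hx => ?_
  have h1 := baseChange_eq_of_eqOn_torsion O f 0 (p ^ k) (fun z hz => h k z hz) x hx
  rw [h1, LinearMap.baseChange_zero, LinearMap.zero_apply]

/-- An endomorphism of `J` which is the identity on `J[p ^ k]` acts trivially modulo `𝔪 ^ k`. -/
theorem tateMap_baseChange_sub_mem [IsLocalRing O] (hp : (p : O) ∈ maximalIdeal O)
    (f : Module.End ℤ J) (k : ℕ) (h : ∀ x : J, p ^ k • x = 0 → f x = x)
    (w : tate O p (O ⊗[ℤ] J)) :
    tateMap (f.baseChange O) w - w ∈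
      (maximalIdeal O ^ k) • (⊤ : Submodule O (tate O p (O ⊗[ℤ] J))) := by
  refine tateMap_sub_apply_mem hp _ k (fun x hx => ?_) w
  have h1 := baseChange_eq_of_eqOn_torsion O f LinearMap.id (p ^ k) (fun z hz => h z hz) x hx
  rw [h1, LinearMap.baseChange_id, LinearMap.id_apply]

end Transfer

section Generic

variable (O : Type) [CommRing O] (p : ℕ) (J : Type) [AddCommGroup J]

/-- Endomorphisms of `J` act on `tate O p (O ⊗[ℤ] J)`: base change, then componentwise. -/
noncomputable def phi : Module.End ℤ J →+* Module.End O (tate O p (O ⊗[ℤ] J)) :=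
  (tateMapHom O p (O ⊗[ℤ] J)).toRingHom.comp (Module.End.baseChangeHom ℤ O J).toRingHom

theorem phi_apply (f : Module.End ℤ J) : phi O p J f = tateMap (f.baseChange O) := rfl

variable {J}

theorem phi_eq_one [Module.Flat ℤ O] (f : Module.End ℤ J)
    (h : ∀ (k : ℕ) (x : J), p ^ k • x = 0 → f x = x) : phi O p J f = 1 := by
  rw [phi_apply]
  exact tateMap_baseChange_eq_one O f h

theorem phi_eq_zero [Module.Flat ℤ O] (f : Module.End ℤ J)
    (h : ∀ (k : ℕ) (x : J), p ^ k • x = 0 → f x = 0) : phi O p J f = 0 := by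
  rw [phi_apply]
  exact tateMap_baseChange_eq_zero O f h

variable {G : Type} [Monoid G] (ρJ : G →* Module.End ℤ J) {ι : Type}
  (TJ : ι → Module.End ℤ J) (hcomm : ∀ i g, Commute (ρJ g) (TJ i)) (c : ι → O)

/-- The action of `G` on the eigenlattice. -/
noncomputable def rhoL : G →* Module.End O (eigen (fun i => phi O p J (TJ i)) c) where
  toFun g := (phi O p J (ρJ g)).restrict
    (fun _ hw => map_mem_eigen _ c _ (fun i => (hcomm i g).map (phi O p J)) hw)
  map_one' := by
    apply LinearMap.ext
    intro w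
    apply Subtype.ext
    show phi O p J (ρJ 1) (w : tate O p (O ⊗[ℤ] J)) = w
    rw [map_one, map_one]
    rfl
  map_mul' g h := by
    apply LinearMap.ext
    intro w
    apply Subtype.ext
    show phi O p J (ρJ (g * h)) (w : tate O p (O ⊗[ℤ] J)) =
      phi O p J (ρJ g) (phi O p J (ρJ h) (w : tate O p (O ⊗[ℤ] J)))
    rw [map_mul, map_mul]
    rfl

theorem rhoL_apply (g : G) (w : eigen (fun i => phi O p J (TJ i)) c) :
    ((rhoL O p ρJ TJ hcomm c g w : eigen (fun i => phi O p J (TJ i)) c) :
      tate O p (O ⊗[ℤ] J)) = phi O p J (ρJ g) (w : tate O p (O ⊗[ℤ] J)) := rfl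

include hcomm in
/-- **The eigenlattice, generic form.** -/
theorem exists_tate_generic [IsDomain O] [IsDiscreteValuationRing O]
    [IsAdicComplete (maximalIdeal O) O] [Finite (ResidueField O)] [CharZero O]
    (hp : (p : O) ∈ maximalIdeal O) (hp0 : p ≠ 0) (hfin : {x : J | p • x = 0}.Finite)
    (L : Type) [AddCommGroup L] [Module.Finite ℤ L] (lam : ℕ → L →+ J)
    (h0 : ∀ ψ, lam 0 ψ = 0) (hcompat : ∀ k ψ, p • lam (k + 1) ψ = lam k ψ)
    (hker : ∀ k ψ, lam k ψ = 0 → ∃ ψ' : L, ψ = p ^ k • ψ')
    (TL : ι → Module.End ℤ L) (hTL : ∀ i k ψ, TJ i (lam k ψ) = lam k (TL i ψ))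
    (v : O ⊗[ℤ] L) (hv : v ≠ 0) (hveig : ∀ i, (TL i).lTensor O v = c i • v) :
    ∃ (W : Type) (_ : AddCommGroup W) (_ : Module O W) (_ : Module.Free O W)
      (_ : Module.Finite O W) (ρ : G →* Module.End O W),
      Nontrivial W ∧
      (∀ (g : G) (k : ℕ), (∀ x : J, p ^ k • x = 0 → ρJ g x = x) →
        ∀ w : W, ρ g w - w ∈ (maximalIdeal O ^ k) • (⊤ : Submodule O W)) ∧
      (∀ g : G, (∀ (k : ℕ) (x : J), p ^ k • x = 0 → ρJ g x = x) → ρ g = 1) ∧
      (∀ (g : G) (i : ι) (n : ℕ),
        (∀ (k : ℕ) (x : J), p ^ k • x = 0 → ρJ g (ρJ g x) - TJ i (ρJ g x) + n • x = 0) →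
        ρ g * ρ g - c i • ρ g + (n : O) • (1 : Module.End O W) = 0) := by
  classical
  have hflat : Module.Flat ℤ O := inferInstance
  have hp0' : (p : O) ≠ 0 := Nat.cast_ne_zero.mpr hp0
  have hOfin : Finite (O ⧸ Ideal.span {(p : O)}) := by
    rw [IsLocalRing.finite_quotient_iff]
    obtain ⟨n, hn⟩ := exists_eq_maximalIdeal_pow (s := Ideal.span {(p : O)})
      (by rwa [Ne, Ideal.span_singleton_eq_bot])
    exact ⟨n, hn.ge⟩
  have hfin₀ : {x : O ⊗[ℤ] J | p • x = 0}.Finite := finite_torsion_tensor O p hfin hOfin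
  obtain ⟨hTfin, hTfree⟩ := finite_free (O := O) hp hp0' hfin₀
  have hTtf : Module.IsTorsionFree O (tate O p (O ⊗[ℤ] J)) := isTorsionFree hp
  have hsat : Saturated (eigen (fun i => phi O p J (TJ i)) c) := saturated_eigen _ c
  obtain ⟨hΛfin, hΛfree⟩ := finite_free_submodule (eigen (fun i => phi O p J (TJ i)) c)
  refine ⟨eigen (fun i => phi O p J (TJ i)) c, inferInstance, inferInstance, hΛfree, hΛfin,
    rhoL O p ρJ TJ hcomm c, ?_, ?_, ?_, ?_⟩
  · -- nontriviality: the image of the eigenvector
    have h0' : ∀ u : O ⊗[ℤ] L, (lam 0).toIntLinearMap.baseChange O u = 0 := by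
      intro u
      have h1 : (lam 0).toIntLinearMap = 0 := LinearMap.ext fun ψ => h0 ψ
      rw [h1, LinearMap.baseChange_zero, LinearMap.zero_apply]
    have hc' : ∀ (k : ℕ) (u : O ⊗[ℤ] L), p • (lam (k + 1)).toIntLinearMap.baseChange O u =
        (lam k).toIntLinearMap.baseChange O u := by
      intro k u
      have h1 : (p : ℤ) • (lam (k + 1)).toIntLinearMap = (lam k).toIntLinearMap := by
        apply LinearMap.ext
        intro ψ
        rw [LinearMap.smul_apply, natCast_zsmul]
        exact hcompat k ψ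
      rw [← h1, LinearMap.baseChange_smul, LinearMap.smul_apply, natCast_zsmul]
    let Θ : O ⊗[ℤ] L →ₗ[O] tate O p (O ⊗[ℤ] J) :=
      ofCompat (fun k => (lam k).toIntLinearMap.baseChange O) h0' hc'
    have hmem : Θ v ∈ eigen (fun i => phi O p J (TJ i)) c := by
      rw [mem_eigen]
      intro i
      have h1 : phi O p J (TJ i) (Θ v) = Θ ((TL i).lTensor O v) := by
        rw [phi_apply]
        refine tateMap_ofCompat _ h0' hc' _ (fun u => (TL i).lTensor O u) (fun k u => ?_) v
        have h2 : (TJ i) ∘ₗ (lam k).toIntLinearMap = (lam k).toIntLinearMap ∘ₗ (TL i) :=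
          LinearMap.ext fun ψ => hTL i k ψ
        have h3 := congrArg (fun f => LinearMap.baseChange O f u) h2
        beta_reduce at h3
        rw [LinearMap.baseChange_comp, LinearMap.baseChange_comp, LinearMap.comp_apply,
          LinearMap.comp_apply] at h3
        rw [h3]
        congr 1
      rw [h1, hveig i, map_smul]
    have hne : Θ v ≠ 0 := by
      intro hz
      have h1 := (ofCompat_eq_zero_iff _ h0' hc' v).mp hz
      refine hv (eq_zero_of_forall_exists_pow_smul (O := O) p hp v fun k => ?_)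
      exact exists_eq_nsmul_of_baseChange_eq_zero O (lam k).toIntLinearMap (p ^ k)
        (fun ψ hψ => hker k ψ hψ) v (h1 k)
    exact ⟨⟨⟨Θ v, hmem⟩, 0, fun h => hne (congrArg Subtype.val h)⟩⟩
  · intro g k h w
    exact hsat.sub_mem_pow_smul_top k (phi O p J (ρJ g))
      (fun _ hw => map_mem_eigen _ c _ (fun i => (hcomm i g).map (phi O p J)) hw) w
      (tateMap_baseChange_sub_mem O hp (ρJ g) k h (w : tate O p (O ⊗[ℤ] J)))
  · intro g h
    apply LinearMap.ext
    intro w
    apply Subtype.ext
    rw [rhoL_apply, phi_eq_one O p (ρJ g) h]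
    rfl
  · intro g i n h
    apply LinearMap.ext
    intro w
    apply Subtype.ext
    have hE : phi O p J (ρJ g * ρJ g - TJ i * ρJ g + (n : Module.End ℤ J)) = 0 := by
      refine phi_eq_zero O p _ (fun k x hx => ?_)
      have h1 := h k x hx
      rw [LinearMap.add_apply, LinearMap.sub_apply, Module.End.mul_apply, Module.End.mul_apply,
        Module.End.natCast_apply]
      exact h1
    rw [map_add, map_sub, map_mul, map_mul, map_natCast] at hE
    have h1 := LinearMap.congr_fun hE (w : tate O p (O ⊗[ℤ] J))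
    have hw' : phi O p J (ρJ g) (w : tate O p (O ⊗[ℤ] J)) ∈
        eigen (fun i => phi O p J (TJ i)) c :=
      map_mem_eigen _ c _ (fun i => (hcomm i g).map (phi O p J)) w.2
    have h2 : phi O p J (TJ i) (phi O p J (ρJ g) (w : tate O p (O ⊗[ℤ] J))) =
        c i • phi O p J (ρJ g) (w : tate O p (O ⊗[ℤ] J)) := (mem_eigen _ c _).mp hw' i
    rw [LinearMap.add_apply, LinearMap.sub_apply, Module.End.mul_apply, Module.End.mul_apply, h2,
      LinearMap.zero_apply] at h1
    show phi O p J (ρJ g) (phi O p J (ρJ g) (w : tate O p (O ⊗[ℤ] J)))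
      - c i • phi O p J (ρJ g) (w : tate O p (O ⊗[ℤ] J))
      + (n : O) • (w : tate O p (O ⊗[ℤ] J)) = 0
    rw [← h1]
    congr 1
    rw [Module.End.natCast_apply, Nat.cast_smul_eq_nsmul]

end Generic

end Fermat.Agent.P5.TateB
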