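import Mathlib
import Fermat.Agent.P5.Plan
import Fermat.Agent.P5.TateB.Generic
import Fermat.Agent.P5.GalHecke
import Fermat.Agent.P5.OpenStabRep
import Fermat.Agent.P5.EigVec

/-!
# P5, block [TATE], second method (T-B): `Plan.TateBlock`

`tateBlock' : Plan.TateBlock` by the `𝒪'`-module route: the `χ`-eigenlattice of
`tate 𝒪' p (𝒪' ⊗[ℤ] J₀(N))` (`Lib/TateModule`, `Lib/TateModuleKit`, `TateB/Generic`).
A declared second method; the first provider is `P5/Eig.lean`.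
-/

set_option autoImplicit false

open Polynomial CuspForm ModularCurve
open scoped TensorProduct

namespace Fermat.Agent.P5.TateB

open Fermat.Agent.P5.Per (Lat tcohL heckeAct)

theorem not_dvd_mul_of_prime {q N p : ℕ} (hq : q.Prime) (hp : p.Prime) (hqN : ¬ q ∣ N)
    (hqp : q ≠ p) : ¬ q ∣ N * p := by
  intro h
  rcases hq.dvd_mul.mp h with h1 | h1
  · exact hqN h1
  · exact hqp ((Nat.prime_dvd_prime_iff_eq hq hp).mp h1)

/-- **[TATE] block contract**, second method. -/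
theorem tateBlock' : Fermat.Agent.P5.Plan.TateBlock := by
  intro p _ N _ S hpS hNS O' _ _ _ _ _ _ hpO' χ hlam hfin hcore
  classical
  have hpprime : p.Prime := Fact.out
  obtain ⟨lam, hl1, hl2, hl3, hl4⟩ := hlam
  have hNS' : ∀ q : ℕ, q.Prime → q ∣ N → q ∈ (↑S : Set ℕ) :=
    fun q hq hqN => Finset.mem_coe.mpr (hNS q hq hqN)
  obtain ⟨v, hv, hveig⟩ := Fermat.Agent.P5.EigVec.eigVecStmt N (↑S : Set ℕ) hNS' O' χ
  have hcomm : ∀ (i : {ℓ : ℕ // ℓ.Prime ∧ ¬ ℓ ∣ N ∧ ℓ ∉ (↑S : Set ℕ)})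
      (g : AlgebraicClosure ℚ ≃ₐ[ℚ] AlgebraicClosure ℚ),
      Commute (DistribMulAction.toModuleEnd ℤ (JZero N) g)
        (heckeOperatorBar N ⟨i.1, i.2.1⟩) := by
    intro i g
    apply LinearMap.ext
    intro x
    exact Fermat.Agent.P5.GalHecke.galois_smul_heckeOperatorBar N ⟨i.1, i.2.1⟩ g x
  have hfin1 : {x : JZero N | p • x = 0}.Finite := by
    have h1 := hfin 1
    rw [pow_one] at h1
    exact h1
  have hLfin : Module.Finite ℤ (Lat N) := Fermat.Agent.P5.Per.lat_finite N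
  obtain ⟨W, iW1, iW2, iW3, iW4, ρ, hnt, hcontW, honeW, hrelW⟩ :=
    exists_tate_generic O' p (DistribMulAction.toModuleEnd ℤ (JZero N))
      (fun i : {ℓ : ℕ // ℓ.Prime ∧ ¬ ℓ ∣ N ∧ ℓ ∉ (↑S : Set ℕ)} =>
        heckeOperatorBar N ⟨i.1, i.2.1⟩) hcomm
      (fun i => χ (heckeAlgebra.T i.2.1 i.2.2.1 i.2.2.2)) hpO' hpprime.ne_zero hfin1 (Lat N)
      (fun k => lam (p ^ k))
      (fun ψ => by
        have h1 := hl1 1 ψ
        rw [one_smul] at h1
        rw [pow_zero]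
        exact h1)
      (fun k ψ => by
        have h1 := hl3 (p ^ k) p ψ (pow_pos hpprime.pos k) hpprime.pos
        rw [pow_succ]
        exact h1)
      (fun k ψ hψ => hl2 (p ^ k) ψ (pow_pos hpprime.pos k) hψ)
      (fun i => heckeAct N (↑S : Set ℕ) hNS' (heckeAlgebra.T i.2.1 i.2.2.1 i.2.2.2))
      (fun i k ψ => by
        have h1 : heckeAct N (↑S : Set ℕ) hNS' (heckeAlgebra.T i.2.1 i.2.2.1 i.2.2.2) ψ =
            tcohL N i.2.1 i.2.2.1 ψ :=
          Subtype.ext (Fermat.Agent.P5.Per.heckeAct_T N (↑S : Set ℕ) hNS' i.2.1 i.2.2.1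
            i.2.2.2 ψ)
        rw [h1, hl4])
      v hv (fun i => hveig _)
  refine ⟨W, iW1, iW2, iW3, iW4, ρ, hnt, ?_, ?_, ?_⟩
  · intro n
    obtain ⟨M, hM1, -, hM2⟩ :=
      Fermat.Agent.P5.OpenStabRep.exists_normal_fixing_jzero_finite' N (hfin n)
    exact ⟨M, hM1, fun σ hσ w => hcontW σ n (fun x hx => hM2 σ hσ x hx) w⟩
  · intro q hq hqN hqp P hP σ hσ
    exact honeW σ (fun k x hx =>
      (hcore q hq (not_dvd_mul_of_prime hq hpprime hqN hqp) P hP).1 σ hσ x ⟨k, hx⟩)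
  · intro ℓ hℓ hℓN hℓS A hA σ hσ
    have hℓp : ℓ ≠ p := fun h => hℓS (h ▸ Finset.mem_coe.mpr hpS)
    exact hrelW σ ⟨ℓ, hℓ, hℓN, hℓS⟩ ℓ (fun k x hx =>
      (hcore ℓ hℓ (not_dvd_mul_of_prime hℓ hpprime hℓN hℓp) A hA).2 σ hσ x ⟨k, hx⟩)

end Fermat.Agent.P5.TateB
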